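import Fermat.Agent.S59.H285.J3bBase

/-!
# Row S59, cell NM, leaf IHARA2 (helper285): exactness `N q → N q²` (J3b), core

`j3b_core` : `q ∤ N` prime, `l ∤ N q` prime with `l ≡ 1 mod q`, `A` ANY abelian group,
`u, v : Γ₀(N q) → A` with `r₁ u + r₂ v = 0` (stage `N q → N q²`).  Then there is
`X : Γ₀(N) → A` with

    r₁ X = (T_l - (l + 1)) v,      r₂ X = - (T_l - (l + 1)) u.

No group theory of `SL₂(𝔽_q)`: `X` is the twisted transfer (`TwistTransfer.lean`) of `v|K`,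
`K = Γ₀(N) ∩ Γ(q)`, along the Hecke representatives of `T_l` twisted to be `≡ 1 mod q`.
-/

set_option autoImplicit false
set_option linter.unusedSectionVars false

namespace Fermat.Agent.S59.H285

open CongruenceSubgroup Matrix.SpecialLinearGroup ModularForm
open Fermat.Agent.S29.H642 Fermat.Agent.S41.Spec Fermat.Agent.S41.H761
open Fermat.Agent.S41
open P2MW.S_ModularForm_heckeT_slash_eq_self_of_mem_Gamma0.ModularForm.HeckeSlashInvariance
open scoped MatrixGroups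

variable {N q l : ℕ} [Fact l.Prime] {A : Type*} [AddCommGroup A]

/-! ## The twist -/

/-- The twist: `η ∞ = 1`, `η j = [[1, -j], [0, 1]]`. -/
def etaG (M l : ℕ) (x : OnePoint (ZMod l)) : Gamma0 M :=
  x.elim 1 (fun j => upG M (-(j.val : ℤ)))

theorem etaG_infty (M : ℕ) : etaG M l OnePoint.infty = 1 := rfl

theorem etaG_coe (M : ℕ) (j : ZMod l) :
    etaG M l (j : OnePoint (ZMod l)) = upG M (-(j.val : ℤ)) := rfl

theorem incl_etaG (x : OnePoint (ZMod l)) : incl N q (etaG (N * q) l x) = etaG N l x := by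
  induction x using OnePoint.rec with
  | infty => rw [etaG_infty, etaG_infty, map_one]
  | coe j => rfl

/-- The twisted representatives. -/
noncomputable def rhoT (M l : ℕ) (x : OnePoint (ZMod l)) : GL (Fin 2) ℝ :=
  ιN M (etaG M l x) * heckeRep l x

/-- A real matrix `[[a, b], [0, d]]` with integers `a ≡ d ≡ 1`, `b ≡ 0 mod q`. -/
def QTriv (q : ℕ) (R : GL (Fin 2) ℝ) : Prop :=
  ∃ a b d : ℤ, (R : Matrix (Fin 2) (Fin 2) ℝ) 0 0 = a ∧ (R : Matrix (Fin 2) (Fin 2) ℝ) 0 1 = b ∧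
    (R : Matrix (Fin 2) (Fin 2) ℝ) 1 0 = 0 ∧ (R : Matrix (Fin 2) (Fin 2) ℝ) 1 1 = d ∧
    (q : ℤ) ∣ a - 1 ∧ (q : ℤ) ∣ b ∧ (q : ℤ) ∣ d - 1

theorem rhoT_entries_infty (M : ℕ) :
    ((rhoT M l OnePoint.infty : GL (Fin 2) ℝ) : Matrix (Fin 2) (Fin 2) ℝ) 0 0 = (l : ℝ) ∧
    ((rhoT M l OnePoint.infty : GL (Fin 2) ℝ) : Matrix (Fin 2) (Fin 2) ℝ) 0 1 = 0 ∧
    ((rhoT M l OnePoint.infty : GL (Fin 2) ℝ) : Matrix (Fin 2) (Fin 2) ℝ) 1 0 = 0 ∧
    ((rhoT M l OnePoint.infty : GL (Fin 2) ℝ) : Matrix (Fin 2) (Fin 2) ℝ) 1 1 = 1 := by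
  unfold rhoT
  rw [etaG_infty, map_one, one_mul, coe_heckeRep_infty]
  simp

theorem rhoT_entries_coe (M : ℕ) (j : ZMod l) :
    ((rhoT M l (j : OnePoint (ZMod l)) : GL (Fin 2) ℝ) : Matrix (Fin 2) (Fin 2) ℝ) 0 0 = 1 ∧
    ((rhoT M l (j : OnePoint (ZMod l)) : GL (Fin 2) ℝ) : Matrix (Fin 2) (Fin 2) ℝ) 0 1 =
      (j.val : ℝ) - (j.val : ℝ) * l ∧
    ((rhoT M l (j : OnePoint (ZMod l)) : GL (Fin 2) ℝ) : Matrix (Fin 2) (Fin 2) ℝ) 1 0 = 0 ∧
    ((rhoT M l (j : OnePoint (ZMod l)) : GL (Fin 2) ℝ) : Matrix (Fin 2) (Fin 2) ℝ) 1 1 = l := by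
  obtain ⟨u00, u01, u10, u11⟩ := upG_apply M (-(j.val : ℤ))
  unfold rhoT
  rw [etaG_coe]
  refine ⟨?_, ?_, ?_, ?_⟩ <;>
    simp only [coe_mul_apply, coe_ιN_apply, coe_heckeRep_coe, Matrix.of_apply, Matrix.cons_val',
      Matrix.cons_val_zero, Matrix.cons_val_one, Matrix.cons_val_fin_one, u00, u01, u10, u11] <;>
    push_cast <;> ring

theorem qTriv_rhoT (M : ℕ) (hl1 : (q : ℤ) ∣ (l : ℤ) - 1) (x : OnePoint (ZMod l)) :
    QTriv q (rhoT M l x) := by
  induction x using OnePoint.rec with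
  | infty =>
    obtain ⟨e00, e01, e10, e11⟩ := rhoT_entries_infty (l := l) M
    exact ⟨l, 0, 1, by rw [e00]; simp, by rw [e01]; simp, e10, by rw [e11]; simp, hl1,
      dvd_zero _, by simp⟩
  | coe j =>
    obtain ⟨e00, e01, e10, e11⟩ := rhoT_entries_coe (l := l) M j
    refine ⟨1, (j.val : ℤ) - (j.val : ℤ) * l, l, by rw [e00]; simp, by rw [e01]; push_cast; ring,
      e10, by rw [e11]; simp, by simp, ?_, hl1⟩
    have : (j.val : ℤ) - (j.val : ℤ) * l = -(j.val : ℤ) * ((l : ℤ) - 1) := by ring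
    rw [this]
    exact Dvd.dvd.mul_left hl1 _

/-- **Congruence.**  `R g = c R'` with `R, R'` trivial modulo `q` implies `c ≡ g mod q`. -/
theorem mem_Gamma_of_qTriv {R R' : GL (Fin 2) ℝ} (hR : QTriv q R) (hR' : QTriv q R')
    {g c : SL(2, ℤ)} (e : R * mapGL ℝ g = mapGL ℝ c * R') : c * g⁻¹ ∈ Gamma q := by
  obtain ⟨a, b, d, r00, r01, r10, r11, ha, hb, hd⟩ := hR
  obtain ⟨a', b', d', s00, s01, s10, s11, ha', hb', hd'⟩ := hR'
  have e00 := congrArg (fun M : GL (Fin 2) ℝ => (M : Matrix (Fin 2) (Fin 2) ℝ) 0 0) e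
  have e01 := congrArg (fun M : GL (Fin 2) ℝ => (M : Matrix (Fin 2) (Fin 2) ℝ) 0 1) e
  have e10 := congrArg (fun M : GL (Fin 2) ℝ => (M : Matrix (Fin 2) (Fin 2) ℝ) 1 0) e
  have e11 := congrArg (fun M : GL (Fin 2) ℝ => (M : Matrix (Fin 2) (Fin 2) ℝ) 1 1) e
  simp only [coe_mul_apply, coe_mapGL_apply, r00, r01, r10, r11, s00, s01, s10, s11] at e00 e01 e10 e11
  have z00 : a * g 0 0 + b * g 1 0 = c 0 0 * a' := by
    have : ((a * g 0 0 + b * g 1 0 : ℤ) : ℝ) = ((c 0 0 * a' : ℤ) : ℝ) := by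
      push_cast; linarith
    exact_mod_cast this
  have z01 : a * g 0 1 + b * g 1 1 = c 0 0 * b' + c 0 1 * d' := by
    have : ((a * g 0 1 + b * g 1 1 : ℤ) : ℝ) = ((c 0 0 * b' + c 0 1 * d' : ℤ) : ℝ) := by
      push_cast; linarith
    exact_mod_cast this
  have z10 : d * g 1 0 = c 1 0 * a' := by
    have : ((d * g 1 0 : ℤ) : ℝ) = ((c 1 0 * a' : ℤ) : ℝ) := by
      push_cast; linarith
    exact_mod_cast this
  have z11 : d * g 1 1 = c 1 0 * b' + c 1 1 * d' := by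
    have : ((d * g 1 1 : ℤ) : ℝ) = ((c 1 0 * b' + c 1 1 * d' : ℤ) : ℝ) := by
      push_cast; linarith
    exact_mod_cast this
  have ca : ((a : ℤ) : ZMod q) = 1 := by
    have := (ZMod.intCast_zmod_eq_zero_iff_dvd _ _).mpr ha
    push_cast at this
    exact sub_eq_zero.mp this
  have cd : ((d : ℤ) : ZMod q) = 1 := by
    have := (ZMod.intCast_zmod_eq_zero_iff_dvd _ _).mpr hd
    push_cast at this
    exact sub_eq_zero.mp this
  have cb : ((b : ℤ) : ZMod q) = 0 := (ZMod.intCast_zmod_eq_zero_iff_dvd _ _).mpr hb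
  have ca' : ((a' : ℤ) : ZMod q) = 1 := by
    have := (ZMod.intCast_zmod_eq_zero_iff_dvd _ _).mpr ha'
    push_cast at this
    exact sub_eq_zero.mp this
  have cd' : ((d' : ℤ) : ZMod q) = 1 := by
    have := (ZMod.intCast_zmod_eq_zero_iff_dvd _ _).mpr hd'
    push_cast at this
    exact sub_eq_zero.mp this
  have cb' : ((b' : ℤ) : ZMod q) = 0 := (ZMod.intCast_zmod_eq_zero_iff_dvd _ _).mpr hb'
  have w00 : ((g 0 0 : ℤ) : ZMod q) = ((c 0 0 : ℤ) : ZMod q) := by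
    have := congrArg (Int.cast : ℤ → ZMod q) z00
    push_cast at this
    rw [ca, cb, ca'] at this
    simpa using this
  have w01 : ((g 0 1 : ℤ) : ZMod q) = ((c 0 1 : ℤ) : ZMod q) := by
    have := congrArg (Int.cast : ℤ → ZMod q) z01
    push_cast at this
    rw [ca, cb, cb', cd'] at this
    simpa using this
  have w10 : ((g 1 0 : ℤ) : ZMod q) = ((c 1 0 : ℤ) : ZMod q) := by
    have := congrArg (Int.cast : ℤ → ZMod q) z10
    push_cast at this
    rw [cd, ca'] at this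
    simpa using this
  have w11 : ((g 1 1 : ℤ) : ZMod q) = ((c 1 1 : ℤ) : ZMod q) := by
    have := congrArg (Int.cast : ℤ → ZMod q) z11
    push_cast at this
    rw [cd, cb', cd'] at this
    simpa using this
  rw [Gamma_mem', map_mul, map_inv, mul_inv_eq_one]
  ext i j
  fin_cases i <;> fin_cases j
  · simpa using w00.symm
  · simpa using w01.symm
  · simpa using w10.symm
  · simpa using w11.symm

end Fermat.Agent.S59.H285
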