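import Fermat.Agent.S59.H285.TwistTransfer
import Fermat.Agent.S41.H761.HT
import Fermat.Agent.S41.H761.TRH

/-!
# Row S59, cell NM, leaf IHARA2 (helper285): exactness `N q → N q²`, base objects

`Γ = Γ₀(N)`, `q ∤ N`, `K = Γ ∩ Γ(q)`, `H₁ = incl (Γ₀(N q))`, `H₂ = conjDelta (Γ₀(N q))`.
For a pair `u, v : Γ₀(N q) → A` with `r₁ u + r₂ v = 0` (at the stage `N q → N q²`):

* `FV v : Γ₀(N) → A` : the function `g ↦ v g` on `Γ₀(N q)` (junk `0` elsewhere);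
* `FV_conjDelta` : `FV v (c_δ k) = - u k` whenever `c_δ k ∈ Γ₀(N q)`;
* `FV_conj` : `FV v` restricted to `K` is invariant under conjugation by `Γ₀(N)`
  (`Γ₀(N) = H₁ H₂ H₁`, `exists_decomp`).
-/

set_option autoImplicit false
set_option linter.unusedSectionVars false

namespace Fermat.Agent.S59.H285

open CongruenceSubgroup Matrix.SpecialLinearGroup ModularForm
open Fermat.Agent.S29.H642 Fermat.Agent.S41.Spec Fermat.Agent.S41.H761
open Fermat.Agent.S41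
open scoped MatrixGroups

variable {N q : ℕ} {A : Type*} [AddCommGroup A]

/-- `K = Γ₀(N) ∩ Γ(q)` as a subgroup of `Γ₀(N)`. -/
def KG (N q : ℕ) : Subgroup (Gamma0 N) := (Gamma q).subgroupOf (Gamma0 N)

instance KG_normal (N q : ℕ) : (KG N q).Normal :=
  Subgroup.Normal.subgroupOf (Gamma_normal (N := q)) _

theorem mem_KG_iff (g : Gamma0 N) : g ∈ KG N q ↔ (g : SL(2, ℤ)) ∈ Gamma q :=
  Subgroup.mem_subgroupOf

theorem dvd_of_mem_KG {g : Gamma0 N} (hg : g ∈ KG N q) :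
    (q : ℤ) ∣ (g : SL(2, ℤ)) 0 1 ∧ (q : ℤ) ∣ (g : SL(2, ℤ)) 1 0 := by
  rw [mem_KG_iff, Gamma_mem] at hg
  exact ⟨(ZMod.intCast_zmod_eq_zero_iff_dvd _ _).mp hg.2.1,
    (ZMod.intCast_zmod_eq_zero_iff_dvd _ _).mp hg.2.2.1⟩

theorem mem_gamma0_mul_of_dvd (hq : q.Prime) (hqN : ¬ q ∣ N) {g : Gamma0 N}
    (hg : (q : ℤ) ∣ (g : SL(2, ℤ)) 1 0) : (g : SL(2, ℤ)) ∈ Gamma0 (N * q) := by
  have h := (H105.mem_range_incl_iff hq hqN g).mpr hg
  rw [H105.range_incl, Subgroup.mem_subgroupOf] at h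
  exact h

theorem mem_gamma0_mul_of_mem_KG (hq : q.Prime) (hqN : ¬ q ∣ N) {g : Gamma0 N}
    (hg : g ∈ KG N q) : (g : SL(2, ℤ)) ∈ Gamma0 (N * q) :=
  mem_gamma0_mul_of_dvd hq hqN (dvd_of_mem_KG hg).2

/-- The function `v` on `Γ₀(N q) ⊆ Γ₀(N)`, extended by `0`. -/
noncomputable def FV (v : Additive (Gamma0 (N * q)) →+ A) (g : Gamma0 N) : A :=
  open Classical in
  if h : (g : SL(2, ℤ)) ∈ Gamma0 (N * q) then v (Additive.ofMul ⟨(g : SL(2, ℤ)), h⟩) else 0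

theorem FV_of_mem (v : Additive (Gamma0 (N * q)) →+ A) (g : Gamma0 N)
    (h : (g : SL(2, ℤ)) ∈ Gamma0 (N * q)) :
    FV v g = v (Additive.ofMul ⟨(g : SL(2, ℤ)), h⟩) := by
  unfold FV
  rw [dif_pos h]

theorem FV_incl (v : Additive (Gamma0 (N * q)) →+ A) (k : Gamma0 (N * q)) :
    FV v (incl N q k) = v (Additive.ofMul k) := by
  rw [FV_of_mem v (incl N q k) k.2]
  rfl

theorem FV_mul (v : Additive (Gamma0 (N * q)) →+ A) (a b : Gamma0 N)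
    (ha : (a : SL(2, ℤ)) ∈ Gamma0 (N * q)) (hb : (b : SL(2, ℤ)) ∈ Gamma0 (N * q)) :
    FV v (a * b) = FV v a + FV v b := by
  have e : a * b = incl N q (⟨a, ha⟩ * ⟨b, hb⟩) := rfl
  have ea : a = incl N q ⟨a, ha⟩ := rfl
  have eb : b = incl N q ⟨b, hb⟩ := rfl
  rw [e, FV_incl, ofMul_mul, map_add]
  conv_rhs => rw [ea, eb, FV_incl, FV_incl]

section Rel

variable [Fact q.Prime]

omit [Fact q.Prime] in
/-- An element `k ∈ Γ₀(N q)` with `c_δ k ∈ Γ₀(N q)` lies in `Γ₀(N q q)`. -/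
theorem mem_gamma0_sq_of_conjDelta (k : Gamma0 (N * q))
    (hk : ((conjDelta N q k : Gamma0 N) : SL(2, ℤ)) ∈ Gamma0 (N * q)) :
    (k : SL(2, ℤ)) ∈ Gamma0 (N * q * q) := by
  obtain ⟨-, -, c10, -⟩ := conjDelta_apply_entries k
  apply mem_Gamma0_of_dvd
  obtain ⟨t, ht⟩ := dvd_of_mem_Gamma0 hk
  rw [← c10, ht]
  push_cast
  exact ⟨t, by ring⟩

/-- **The relation.**  `r₁ u + r₂ v = 0` (stage `N q → N q²`) says `v (c_δ k) = - u k`. -/
theorem FV_conjDelta (u v : Additive (Gamma0 (N * q)) →+ A)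
    (hker : r₁ (N * q) q u + r₂ (N * q) q v = 0) (k : Gamma0 (N * q))
    (hk : ((conjDelta N q k : Gamma0 N) : SL(2, ℤ)) ∈ Gamma0 (N * q)) :
    FV v (conjDelta N q k) = - u (Additive.ofMul k) := by
  have hk2 := mem_gamma0_sq_of_conjDelta k hk
  let k2 : Gamma0 (N * q * q) := ⟨(k : SL(2, ℤ)), hk2⟩
  have h := congrArg (fun φ : Additive (Gamma0 (N * q * q)) →+ A => φ (Additive.ofMul k2)) hker
  simp only [AddMonoidHom.add_apply, AddMonoidHom.zero_apply, r₁, r₂, AddMonoidHom.coe_comp,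
    Function.comp_apply, MonoidHom.toAdditive_apply_apply, toMul_ofMul] at h
  have e1 : incl (N * q) q k2 = k := rfl
  have e2 : conjDelta (N * q) q k2 = ⟨((conjDelta N q k : Gamma0 N) : SL(2, ℤ)), hk⟩ := by
    apply Subtype.ext
    apply Subtype.ext
    rfl
  rw [e1, e2] at h
  rw [FV_of_mem v _ hk]
  exact eq_neg_of_add_eq_zero_right h

end Rel

/-! ## Elements and the decomposition `Γ₀(N) = H₁ H₂ H₁` -/

theorem gamma0_ext {M : ℕ} {g h : Gamma0 M}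
    (h00 : (g : SL(2, ℤ)) 0 0 = (h : SL(2, ℤ)) 0 0)
    (h01 : (g : SL(2, ℤ)) 0 1 = (h : SL(2, ℤ)) 0 1)
    (h10 : (g : SL(2, ℤ)) 1 0 = (h : SL(2, ℤ)) 1 0)
    (h11 : (g : SL(2, ℤ)) 1 1 = (h : SL(2, ℤ)) 1 1) : g = h := by
  apply Subtype.ext
  apply Subtype.ext
  ext i j
  fin_cases i <;> fin_cases j
  · exact h00
  · exact h01
  · exact h10
  · exact h11

theorem sl_mul_apply (g h : SL(2, ℤ)) (i j : Fin 2) :
    (g * h) i j = g i 0 * h 0 j + g i 1 * h 1 j := by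
  rw [Matrix.SpecialLinearGroup.coe_mul, Matrix.mul_apply, Fin.sum_univ_two]

theorem gamma0_mul_apply {M : ℕ} (g h : Gamma0 M) (i j : Fin 2) :
    ((g * h : Gamma0 M) : SL(2, ℤ)) i j =
      (g : SL(2, ℤ)) i 0 * (h : SL(2, ℤ)) 0 j + (g : SL(2, ℤ)) i 1 * (h : SL(2, ℤ)) 1 j := by
  rw [Subgroup.coe_mul, sl_mul_apply]

/-- The upper unipotent `[[1, n], [0, 1]]`. -/
def upG (M : ℕ) (n : ℤ) : Gamma0 M := mkGamma0 M 1 n 0 1 (by ring) (dvd_zero _)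

/-- The lower unipotent `[[1, 0], [M m, 1]]`. -/
def loG (M : ℕ) (m : ℤ) : Gamma0 M := mkGamma0 M 1 0 (M * m) 1 (by ring) (dvd_mul_right _ _)

theorem upG_apply (M : ℕ) (n : ℤ) :
    ((upG M n : Gamma0 M) : SL(2, ℤ)) 0 0 = 1 ∧ ((upG M n : Gamma0 M) : SL(2, ℤ)) 0 1 = n ∧
    ((upG M n : Gamma0 M) : SL(2, ℤ)) 1 0 = 0 ∧ ((upG M n : Gamma0 M) : SL(2, ℤ)) 1 1 = 1 :=
  mkGamma0_apply M 1 n 0 1 (by ring) (dvd_zero _)

theorem loG_apply (M : ℕ) (m : ℤ) :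
    ((loG M m : Gamma0 M) : SL(2, ℤ)) 0 0 = 1 ∧ ((loG M m : Gamma0 M) : SL(2, ℤ)) 0 1 = 0 ∧
    ((loG M m : Gamma0 M) : SL(2, ℤ)) 1 0 = M * m ∧ ((loG M m : Gamma0 M) : SL(2, ℤ)) 1 1 = 1 :=
  mkGamma0_apply M 1 0 (M * m) 1 (by ring) (dvd_mul_right _ _)

theorem exists_nm (hq : q.Prime) (hqN : ¬ q ∣ N) (a c : ℤ) :
    ∃ n m : ℤ, (q : ℤ) ∣ c + N * m * (a + n * c) := by
  have : Fact q.Prime := ⟨hq⟩
  by_cases hc : (q : ℤ) ∣ c
  · exact ⟨0, 0, by simpa using hc⟩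
  · have hc0 : ((c : ℤ) : ZMod q) ≠ 0 := fun h => hc ((ZMod.intCast_zmod_eq_zero_iff_dvd _ _).mp h)
    have hN0 : ((N : ℕ) : ZMod q) ≠ 0 := fun h => hqN ((ZMod.natCast_eq_zero_iff _ _).mp h)
    refine ⟨(((1 - (a : ZMod q)) * (c : ZMod q)⁻¹).val : ℤ),
      (((-(c : ZMod q)) * ((N : ℕ) : ZMod q)⁻¹).val : ℤ), ?_⟩
    rw [← ZMod.intCast_zmod_eq_zero_iff_dvd]
    push_cast
    rw [ZMod.natCast_zmod_val, ZMod.natCast_zmod_val]
    field_simp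
    ring

/-- **Decomposition** `Γ₀(N) = H₁ H₂ H₁`, `H₁ = incl (Γ₀(N q))`, `H₂ = c_δ (Γ₀(N q))`. -/
theorem exists_decomp (hq : q.Prime) (hqN : ¬ q ∣ N) (g : Gamma0 N) :
    ∃ h₁ h₂ h₃ : Gamma0 (N * q), g = incl N q h₁ * conjDelta N q h₂ * incl N q h₃ := by
  have : Fact q.Prime := ⟨hq⟩
  have hq0 : (q : ℤ) ≠ 0 := by exact_mod_cast hq.ne_zero
  obtain ⟨n, m, hnm⟩ := exists_nm hq hqN ((g : SL(2, ℤ)) 0 0) ((g : SL(2, ℤ)) 1 0)
  obtain ⟨u00, u01, u10, u11⟩ := upG_apply N n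
  obtain ⟨l00, l01, l10, l11⟩ := loG_apply N m
  -- `e = l(m) u(n) g ∈ Γ₀(N q)`
  set e : Gamma0 N := loG N m * upG N n * g with he
  have he10 : (e : SL(2, ℤ)) 1 0 =
      (g : SL(2, ℤ)) 1 0 + N * m * ((g : SL(2, ℤ)) 0 0 + n * (g : SL(2, ℤ)) 1 0) := by
    rw [he, gamma0_mul_apply, gamma0_mul_apply, gamma0_mul_apply, u00, u10, u11, u01, l10, l11]
    ring
  have hemem : (e : SL(2, ℤ)) ∈ Gamma0 (N * q) :=
    mem_gamma0_mul_of_dvd hq hqN (by rw [he10]; exact hnm)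
  -- `h₂ = [[1, 0], [- N m q, 1]]`
  let h₂ : Gamma0 (N * q) := mkGamma0 (N * q) 1 0 (-(N * m * q)) 1 (by ring)
    ⟨-m, by push_cast; ring⟩
  obtain ⟨k00, k01, k10, k11⟩ := mkGamma0_apply (N * q) 1 0 (-(N * m * q)) 1 (by ring)
    (⟨-m, by push_cast; ring⟩ : ((N * q : ℕ) : ℤ) ∣ -(N * m * q))
  obtain ⟨c00, c01, c10, c11⟩ := conjDelta_apply_entries h₂
  have c10' : ((conjDelta N q h₂ : Gamma0 N) : SL(2, ℤ)) 1 0 = -(N * m) := by
    have : ((conjDelta N q h₂ : Gamma0 N) : SL(2, ℤ)) 1 0 * q = -(N * m) * q := by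
      rw [c10]
      show ((mkGamma0 (N * q) 1 0 (-(N * m * q)) 1 _ _ : Gamma0 (N * q)) : SL(2, ℤ)) 1 0 = _
      rw [k10]
      ring
    exact mul_right_cancel₀ hq0 this
  have c00' : ((conjDelta N q h₂ : Gamma0 N) : SL(2, ℤ)) 0 0 = 1 := by
    rw [c00]; exact k00
  have c01' : ((conjDelta N q h₂ : Gamma0 N) : SL(2, ℤ)) 0 1 = 0 := by
    rw [c01]
    show (q : ℤ) * ((mkGamma0 (N * q) 1 0 (-(N * m * q)) 1 _ _ : Gamma0 (N * q)) : SL(2, ℤ)) 0 1 = _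
    rw [k01, mul_zero]
  have c11' : ((conjDelta N q h₂ : Gamma0 N) : SL(2, ℤ)) 1 1 = 1 := by
    rw [c11]; exact k11
  have e2 : conjDelta N q h₂ * loG N m = 1 := by
    apply gamma0_ext <;>
      simp only [gamma0_mul_apply, c00', c01', c10', c11', l00, l01, l10, l11] <;> simp
  obtain ⟨v00, v01, v10, v11⟩ := upG_apply (N * q) (-n)
  have e1 : incl N q (upG (N * q) (-n)) * upG N n = 1 := by
    apply gamma0_ext
    · rw [gamma0_mul_apply]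
      show ((upG (N * q) (-n) : Gamma0 (N * q)) : SL(2, ℤ)) 0 0 * _ +
        ((upG (N * q) (-n) : Gamma0 (N * q)) : SL(2, ℤ)) 0 1 * _ = _
      rw [v00, v01, u00, u10]; simp
    · rw [gamma0_mul_apply]
      show ((upG (N * q) (-n) : Gamma0 (N * q)) : SL(2, ℤ)) 0 0 * _ +
        ((upG (N * q) (-n) : Gamma0 (N * q)) : SL(2, ℤ)) 0 1 * _ = _
      rw [v00, v01, u01, u11]; simp
    · rw [gamma0_mul_apply]
      show ((upG (N * q) (-n) : Gamma0 (N * q)) : SL(2, ℤ)) 1 0 * _ +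
        ((upG (N * q) (-n) : Gamma0 (N * q)) : SL(2, ℤ)) 1 1 * _ = _
      rw [v10, v11, u00, u10]; simp
    · rw [gamma0_mul_apply]
      show ((upG (N * q) (-n) : Gamma0 (N * q)) : SL(2, ℤ)) 1 0 * _ +
        ((upG (N * q) (-n) : Gamma0 (N * q)) : SL(2, ℤ)) 1 1 * _ = _
      rw [v10, v11, u01, u11]; simp
  refine ⟨upG (N * q) (-n), h₂, ⟨(e : SL(2, ℤ)), hemem⟩, ?_⟩
  have e3 : incl N q ⟨(e : SL(2, ℤ)), hemem⟩ = e := rfl
  rw [e3, he]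
  calc g = 1 * g := (one_mul g).symm
    _ = (incl N q (upG (N * q) (-n)) * upG N n) * g := by rw [e1]
    _ = (incl N q (upG (N * q) (-n)) * (conjDelta N q h₂ * loG N m) * upG N n) * g := by
        rw [e2, mul_one]
    _ = _ := by simp only [mul_assoc]

/-! ## Invariance -/

/-- **Invariance.**  `FV v` restricted to `K = Γ₀(N) ∩ Γ(q)` is invariant under conjugation by
`Γ₀(N)`. -/
theorem FV_conj (hq : q.Prime) (hqN : ¬ q ∣ N) (u v : Additive (Gamma0 (N * q)) →+ A)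
    (hker : r₁ (N * q) q u + r₂ (N * q) q v = 0) (g a : Gamma0 N) (ha : a ∈ KG N q) :
    FV v (g * a * g⁻¹) = FV v a := by
  have : Fact q.Prime := ⟨hq⟩
  have P1 : ∀ h : Gamma0 (N * q), ∀ a ∈ KG N q,
      FV v (incl N q h * a * (incl N q h)⁻¹) = FV v a := by
    intro h a ha
    have hamem := mem_gamma0_mul_of_mem_KG hq hqN ha
    have ea : a = incl N q ⟨a, hamem⟩ := rfl
    rw [ea, ← map_inv, ← map_mul, ← map_mul, FV_incl, FV_incl]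
    simp only [ofMul_mul, ofMul_inv, map_add, map_neg]
    abel
  have P2 : ∀ h : Gamma0 (N * q), ∀ a ∈ KG N q,
      FV v (conjDelta N q h * a * (conjDelta N q h)⁻¹) = FV v a := by
    intro h a ha
    obtain ⟨k, rfl⟩ := (H105.mem_range_conjDelta_iff N hq.ne_zero a).mpr (dvd_of_mem_KG ha).1
    have hk := mem_gamma0_mul_of_mem_KG hq hqN ha
    have hconj : conjDelta N q h * conjDelta N q k * (conjDelta N q h)⁻¹ ∈ KG N q :=
      (KG_normal N q).conj_mem _ ha _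
    rw [← map_inv, ← map_mul, ← map_mul] at hconj ⊢
    rw [FV_conjDelta u v hker _ (mem_gamma0_mul_of_mem_KG hq hqN hconj),
      FV_conjDelta u v hker k hk]
    simp only [ofMul_mul, ofMul_inv, map_add, map_neg]
    abel
  obtain ⟨h₁, h₂, h₃, rfl⟩ := exists_decomp hq hqN g
  have e : incl N q h₁ * conjDelta N q h₂ * incl N q h₃ * a *
      (incl N q h₁ * conjDelta N q h₂ * incl N q h₃)⁻¹ =
      incl N q h₁ * (conjDelta N q h₂ * (incl N q h₃ * a * (incl N q h₃)⁻¹) *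
        (conjDelta N q h₂)⁻¹) * (incl N q h₁)⁻¹ := by
    group
  have ha3 : incl N q h₃ * a * (incl N q h₃)⁻¹ ∈ KG N q := (KG_normal N q).conj_mem _ ha _
  have ha2 : conjDelta N q h₂ * (incl N q h₃ * a * (incl N q h₃)⁻¹) *
      (conjDelta N q h₂)⁻¹ ∈ KG N q := (KG_normal N q).conj_mem _ ha3 _
  rw [e, P1 h₁ _ ha2, P2 h₂ _ ha3, P1 h₃ _ ha]

end Fermat.Agent.S59.H285
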