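import Mathlib
import Fermat.Agent.S41.H761.CosetSystem2

/-!
# Row S59, cell NM, leaf IHARA2 (helper285): twisted transfers of coset systems

Abstract part of the exactness `N q → N q²` (J3b).  `h : IsCosetSystem ι ι ρ` a coset system from
`Γ` to `Γ`, `K ⊴ Γ`, `F : Γ → A` additive on `K` and invariant under conjugation by `Γ`.  If every
cocycle value `coc i g` is congruent to `g` modulo `K`, then

    X(g) = ∑ i, F (coc i g * g⁻¹)

is a homomorphism `Γ → A` (`twistedTransfer`): the "transfer of a class which only exists on `K`".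
On a subgroup where `F` extends to a homomorphism `y` it is `transfer y - |I| y`.
-/

set_option autoImplicit false

namespace Fermat.Agent.S59.H285

open Fermat.Agent.S41.H761

section Twist

variable {𝒢 Γ Γ' : Type*} [Group 𝒢] [Group Γ] [Group Γ'] {I : Type*}
  {ι : Γ →* 𝒢} {ι' : Γ' →* 𝒢} {ρ : I → 𝒢}

/-- Twisting the representatives of a coset system on the left by elements of `Γ`. -/
theorem cosetSystem_twist (h : IsCosetSystem ι ι' ρ) (η : I → Γ) :
    IsCosetSystem ι ι' (fun i => ι (η i) * ρ i) where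
  inj := h.inj
  exists_mul := fun i g' => ⟨h.act i g', η i * h.coc i g' * (η (h.act i g'))⁻¹, by
    simp only [map_mul, map_inv, mul_assoc, inv_mul_cancel_left]
    rw [h.spec i g']⟩
  eq_of_mul := fun i j g e => h.eq_of_mul i j ((η i)⁻¹ * g * η j) (by
    have e' : ρ i = (ι (η i))⁻¹ * (ι g * (ι (η j) * ρ j)) := by
      rw [← e, inv_mul_cancel_left]
    rw [e']
    simp only [map_mul, map_inv, mul_assoc])

theorem cosetSystem_twist_act (h : IsCosetSystem ι ι' ρ) (η : I → Γ) (i : I) (g' : Γ') :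
    (cosetSystem_twist h η).act i g' = h.act i g' := by
  apply (cosetSystem_twist h η).act_eq (g := η i * h.coc i g' * (η (h.act i g'))⁻¹)
  simp only [map_mul, map_inv, mul_assoc, inv_mul_cancel_left]
  rw [h.spec i g']

theorem cosetSystem_twist_coc (h : IsCosetSystem ι ι' ρ) (η : I → Γ) (i : I) (g' : Γ') :
    (cosetSystem_twist h η).coc i g' = η i * h.coc i g' * (η (h.act i g'))⁻¹ := by
  apply (cosetSystem_twist h η).coc_eq (j := h.act i g')
  simp only [map_mul, map_inv, mul_assoc, inv_mul_cancel_left]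
  rw [h.spec i g']

end Twist

section TwistedTransfer

variable {𝒢 Γ : Type*} [Group 𝒢] [Group Γ] {I : Type*} [Fintype I]
  {ι : Γ →* 𝒢} {ρ : I → 𝒢} {A : Type*} [AddCommGroup A]

/-- **The twisted transfer.**  `X(g) = ∑ i, F (coc i g * g⁻¹)`. -/
noncomputable def twistedTransfer (h : IsCosetSystem ι ι ρ) (K : Subgroup Γ) (F : Γ → A)
    (hF1 : ∀ a ∈ K, ∀ b ∈ K, F (a * b) = F a + F b)
    (hF2 : ∀ g : Γ, ∀ a ∈ K, g * a * g⁻¹ ∈ K ∧ F (g * a * g⁻¹) = F a)
    (hK : ∀ (i : I) (g : Γ), h.coc i g * g⁻¹ ∈ K) : Additive Γ →+ A where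
  toFun g := ∑ i, F (h.coc i (Additive.toMul g) * (Additive.toMul g)⁻¹)
  map_zero' := by
    have h1 : F 1 = 0 := by
      have := hF1 1 K.one_mem 1 K.one_mem
      rw [mul_one] at this
      exact left_eq_add.mp this
    simp only [toMul_zero, h.coc_one, inv_one, mul_one, h1, Finset.sum_const_zero]
  map_add' a b := by
    obtain ⟨g, rfl⟩ : ∃ g : Γ, Additive.ofMul g = a := ⟨Additive.toMul a, rfl⟩
    obtain ⟨k, rfl⟩ : ∃ k : Γ, Additive.ofMul k = b := ⟨Additive.toMul b, rfl⟩
    simp only [toMul_add, toMul_ofMul]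
    have key : ∀ i, F (h.coc i (g * k) * (g * k)⁻¹) =
        F (h.coc i g * g⁻¹) + F (h.coc (h.act i g) k * k⁻¹) := by
      intro i
      have e : h.coc i (g * k) * (g * k)⁻¹ =
          (h.coc i g * g⁻¹) * (g * (h.coc (h.act i g) k * k⁻¹) * g⁻¹) := by
        rw [h.coc_mul]
        group
      rw [e, hF1 _ (hK i g) _ (hF2 g _ (hK _ k)).1, (hF2 g _ (hK _ k)).2]
    simp only [key, Finset.sum_add_distrib]
    congr 1
    exact Equiv.sum_comp (h.actEquiv g) (fun j => F (h.coc j k * k⁻¹))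

theorem twistedTransfer_apply (h : IsCosetSystem ι ι ρ) (K : Subgroup Γ) (F : Γ → A)
    (hF1 : ∀ a ∈ K, ∀ b ∈ K, F (a * b) = F a + F b)
    (hF2 : ∀ g : Γ, ∀ a ∈ K, g * a * g⁻¹ ∈ K ∧ F (g * a * g⁻¹) = F a)
    (hK : ∀ (i : I) (g : Γ), h.coc i g * g⁻¹ ∈ K) (g : Γ) :
    twistedTransfer h K F hF1 hF2 hK (Additive.ofMul g) = ∑ i, F (h.coc i g * g⁻¹) := rfl

end TwistedTransfer

end Fermat.Agent.S59.H285
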