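import Fermat.Agent.S59.H285.J3b
import Fermat.Agent.S59.H285.TwistTransfer
import Fermat.Agent.S41.H761.HT

/-!
# Row S59, cell NM, leaf IHARA2 (helper285): exactness `N q → N q²` (J3b), the class `X`

`j3b_core` : `q ∤ N` prime, `l ∤ N q` prime with `l ≡ 1 mod q`, `A` ANY abelian group,
`u, v : Γ₀(N q) → A` with `r₁ u + r₂ v = 0` (stage `N q → N q²`).  Then there is
`X : Γ₀(N) → A` with

    r₁ X = T_l v - (l + 1) v,      r₂ X = - (T_l u - (l + 1) u).
-/

set_option autoImplicit false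
set_option linter.unusedSectionVars false

namespace Fermat.Agent.S59.H285

open CongruenceSubgroup Matrix.SpecialLinearGroup ModularForm
open Fermat.Agent.S29.H642 Fermat.Agent.S41.Spec Fermat.Agent.S41.H761
open Fermat.Agent.S41
open P2MW.S_ModularForm_heckeT_slash_eq_self_of_mem_Gamma0.ModularForm.HeckeSlashInvariance
open scoped MatrixGroups

variable {N q l : ℕ} [Fact l.Prime] {A : Type*} [AddCommGroup A]

/-! ## The twisted Hecke system -/

/-- The Hecke coset system with the twisted representatives. -/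
theorem sysT (hlN : ¬ l ∣ N) : IsCosetSystem (ιN N) (ιN N) (rhoT N l) :=
  cosetSystem_twist (heckeSystem hlN) (etaG N l)

theorem rhoT_mul (x : OnePoint (ZMod l)) : rhoT (N * q) l x = rhoT N l x := by
  unfold rhoT
  rw [← incl_etaG (N := N) (q := q) x]
  rfl

theorem ιN_incl (k : Gamma0 (N * q)) : ιN N (incl N q k) = ιN (N * q) k := rfl

/-- The cocycle of the twisted system is congruent to the argument modulo `q`. -/
theorem sysT_coc_mem (hlN : ¬ l ∣ N) (hl1 : (q : ℤ) ∣ (l : ℤ) - 1) (x : OnePoint (ZMod l))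
    (g : Gamma0 N) : (sysT hlN).coc x g * g⁻¹ ∈ KG N q := by
  rw [mem_KG_iff]
  have e := (sysT hlN).spec x g
  rw [ιN_apply, ιN_apply] at e
  exact mem_Gamma_of_qTriv (qTriv_rhoT N hl1 x) (qTriv_rhoT N hl1 _) e

/-- The cocycle of the twisted system on `Γ₀(N q)`. -/
theorem sysT_coc_incl (hlN : ¬ l ∣ N) (hlNq : ¬ l ∣ N * q) (x : OnePoint (ZMod l))
    (γ : Gamma0 (N * q)) :
    (sysT hlN).coc x (incl N q γ) = incl N q ((sysT hlNq).coc x γ) := by
  apply (sysT hlN).coc_eq (j := (sysT hlNq).act x γ)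
  have e := (sysT hlNq).spec x γ
  rw [rhoT_mul, rhoT_mul] at e
  exact e

/-! ## The class `X` -/

/-- **The class `X`**: the twisted transfer of `v|K`. -/
noncomputable def XJ (hq : q.Prime) (hqN : ¬ q ∣ N) (hlN : ¬ l ∣ N)
    (hl1 : (q : ℤ) ∣ (l : ℤ) - 1) (u v : Additive (Gamma0 (N * q)) →+ A)
    (hker : r₁ (N * q) q u + r₂ (N * q) q v = 0) : Additive (Gamma0 N) →+ A :=
  twistedTransfer (sysT hlN) (KG N q) (FV v)
    (fun a ha b hb => FV_mul v a b (mem_gamma0_mul_of_mem_KG hq hqN ha)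
      (mem_gamma0_mul_of_mem_KG hq hqN hb))
    (fun g a ha => ⟨(KG_normal N q).conj_mem a ha g, FV_conj hq hqN u v hker g a ha⟩)
    (sysT_coc_mem hlN hl1)

theorem XJ_apply (hq : q.Prime) (hqN : ¬ q ∣ N) (hlN : ¬ l ∣ N)
    (hl1 : (q : ℤ) ∣ (l : ℤ) - 1) (u v : Additive (Gamma0 (N * q)) →+ A)
    (hker : r₁ (N * q) q u + r₂ (N * q) q v = 0) (g : Gamma0 N) :
    XJ hq hqN hlN hl1 u v hker (Additive.ofMul g) =
      ∑ x, FV v ((sysT hlN).coc x g * g⁻¹) := rfl

/-- The transfer of the twisted system is the Hecke operator. -/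
theorem sysT_transfer (hlN : ¬ l ∣ N) (φ : Additive (Gamma0 N) →+ A) :
    (sysT hlN).transfer φ = heckeTransfer hlN φ := by
  rw [heckeTransfer_eq_transfer]
  exact IsCosetSystem.transfer_eq_of_le_of_card (sysT hlN) (heckeSystem hlN) rfl
    (fun x => ⟨x, etaG N l x, rfl⟩) φ

theorem card_onePoint : Fintype.card (OnePoint (ZMod l)) = l + 1 := by
  have : Fintype.card (OnePoint (ZMod l)) = Fintype.card (Option (ZMod l)) := rfl
  rw [this, Fintype.card_option, ZMod.card]

/-- **Step `r₁`.** -/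
theorem r₁_XJ (hq : q.Prime) (hqN : ¬ q ∣ N) (hlN : ¬ l ∣ N) (hlNq : ¬ l ∣ N * q)
    (hl1 : (q : ℤ) ∣ (l : ℤ) - 1) (u v : Additive (Gamma0 (N * q)) →+ A)
    (hker : r₁ (N * q) q u + r₂ (N * q) q v = 0) :
    r₁ N q (XJ hq hqN hlN hl1 u v hker) = heckeTransfer hlNq v - (l + 1) • v := by
  refine AddMonoidHom.ext fun g' => ?_
  obtain ⟨γ, rfl⟩ : ∃ γ : Gamma0 (N * q), Additive.ofMul γ = g' := ⟨Additive.toMul g', rfl⟩
  have e1 : r₁ N q (XJ hq hqN hlN hl1 u v hker) (Additive.ofMul γ) =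
      XJ hq hqN hlN hl1 u v hker (Additive.ofMul (incl N q γ)) := rfl
  rw [e1, XJ_apply, ← sysT_transfer hlNq v]
  simp only [AddMonoidHom.sub_apply, AddMonoidHom.smul_apply, IsCosetSystem.transfer_apply]
  have key : ∀ x : OnePoint (ZMod l), FV v ((sysT hlN).coc x (incl N q γ) * (incl N q γ)⁻¹) =
      v (Additive.ofMul ((sysT hlNq).coc x γ)) - v (Additive.ofMul γ) := by
    intro x
    rw [sysT_coc_incl hlN hlNq, ← map_inv, ← map_mul, FV_incl, ofMul_mul, ofMul_inv, map_add,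
      map_neg, sub_eq_add_neg]
  simp only [key, Finset.sum_sub_distrib, Finset.sum_const, Finset.card_univ, card_onePoint]

end Fermat.Agent.S59.H285
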