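import Fermat.Agent.S59.H285.J3bCore

/-!
# Row S59, cell NM, leaf IHARA2 (helper285): exactness `N q → N q²` (J3b), step `r₂`

`r₂_XJ` : `r₂ X = - (T_l u - (l + 1) u)`, and the final statement `j3b_core`.
-/

set_option autoImplicit false
set_option linter.unusedSectionVars false

namespace Fermat.Agent.S59.H285

open CongruenceSubgroup Matrix.SpecialLinearGroup ModularForm
open Fermat.Agent.S29.H642 Fermat.Agent.S41.Spec Fermat.Agent.S41.H761
open Fermat.Agent.S41
open P2MW.S_ModularForm_heckeT_slash_eq_self_of_mem_Gamma0.ModularForm.HeckeSlashInvariance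
open scoped MatrixGroups

variable {N q l : ℕ} [Fact l.Prime] {A : Type*} [AddCommGroup A]

/-- The twisted system seen from `Γ₀(N q)` through `c_δ`. -/
theorem sysD (hq : q.Prime) (hlN : ¬ l ∣ N) (hl1 : (q : ℤ) ∣ (l : ℤ) - 1) :
    IsCosetSystem ((ιN N).comp (conjDelta N q)) ((ιN N).comp (conjDelta N q)) (rhoT N l) where
  inj := (ιN_injective N).comp (H105.conjDelta_injective N hq.ne_zero)
  exists_mul := fun x γ => by
    have hmem := sysT_coc_mem (q := q) hlN hl1 x (conjDelta N q γ)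
    have h1 : (sysT hlN).coc x (conjDelta N q γ) ∈ (conjDelta N q).range := by
      have h2 : (sysT hlN).coc x (conjDelta N q γ) * (conjDelta N q γ)⁻¹ ∈
          (conjDelta N q).range :=
        (H105.mem_range_conjDelta_iff N hq.ne_zero _).mpr (dvd_of_mem_KG hmem).1
      have := (conjDelta N q).range.mul_mem h2 ⟨γ, rfl⟩
      rwa [inv_mul_cancel_right] at this
    obtain ⟨k, hk⟩ := h1
    exact ⟨(sysT hlN).act x (conjDelta N q γ), k, by
      rw [MonoidHom.comp_apply, MonoidHom.comp_apply, hk]; exact (sysT hlN).spec x _⟩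
  eq_of_mul := fun x y g e => (sysT hlN).eq_of_mul x y (conjDelta N q g) e

theorem sysD_coc (hq : q.Prime) (hlN : ¬ l ∣ N) (hl1 : (q : ℤ) ∣ (l : ℤ) - 1)
    (x : OnePoint (ZMod l)) (γ : Gamma0 (N * q)) :
    conjDelta N q ((sysD hq hlN hl1).coc x γ) = (sysT hlN).coc x (conjDelta N q γ) :=
  ((sysT hlN).coc_eq (j := (sysD hq hlN hl1).act x γ) ((sysD hq hlN hl1).spec x γ)).symm

theorem diag_inv_rel (hq0 : q ≠ 0) (g : Gamma0 (N * q)) :
    (heckeDiagMatrix q)⁻¹ * ((ιN N).comp (conjDelta N q)) g =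
      ιN (N * q) g * (heckeDiagMatrix q)⁻¹ := by
  rw [inv_mul_eq_iff_eq_mul, ← mul_assoc, diag_rel hq0 g, mul_assoc, mul_inv_cancel, mul_one]

/-- The conjugated system, a coset system of `Γ₀(N q)`. -/
theorem sysC (hq : q.Prime) (hlN : ¬ l ∣ N) (hl1 : (q : ℤ) ∣ (l : ℤ) - 1) :
    IsCosetSystem (ιN (N * q)) (ιN (N * q))
      (fun x => (heckeDiagMatrix q)⁻¹ * rhoT N l x * ((heckeDiagMatrix q)⁻¹)⁻¹) :=
  (sysD hq hlN hl1).conj (heckeDiagMatrix q)⁻¹ (diag_inv_rel hq.ne_zero)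
    (diag_inv_rel hq.ne_zero)

/-- The conjugated representatives are Hecke representatives up to `Γ₀(N q)`. -/
theorem conj_rhoT (hq0 : q ≠ 0) (hl1 : (q : ℤ) ∣ (l : ℤ) - 1) (x : OnePoint (ZMod l)) :
    ∃ (y : OnePoint (ZMod l)) (β : Gamma0 (N * q)),
      (heckeDiagMatrix q)⁻¹ * rhoT N l x * ((heckeDiagMatrix q)⁻¹)⁻¹ =
        ιN (N * q) β * heckeRep l y := by
  induction x using OnePoint.rec with
  | infty =>
    obtain ⟨e00, e01, e10, e11⟩ := rhoT_entries_infty (l := l) N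
    refine ⟨OnePoint.infty, 1, ?_⟩
    rw [inv_inv, mul_assoc, inv_mul_eq_iff_eq_mul, map_one, one_mul]
    apply gl_ext <;>
      simp only [coe_mul_apply, coe_heckeRep_infty, val_heckeDiagMatrix hq0, Matrix.of_apply,
        Matrix.cons_val', Matrix.cons_val_zero, Matrix.cons_val_one, Matrix.cons_val_fin_one,
        e00, e01, e10, e11] <;>
      ring
  | coe j =>
    obtain ⟨e00, e01, e10, e11⟩ := rhoT_entries_coe (l := l) N j
    obtain ⟨t, ht⟩ := hl1
    set s : ℤ := -(j.val : ℤ) * t with hs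
    have hy : (((s : ZMod l).val : ℕ) : ℤ) = s % l := ZMod.val_intCast s
    have hdiv : s % l + l * (s / l) = s := Int.emod_add_mul_ediv s l
    obtain ⟨u00, u01, u10, u11⟩ := upG_apply (N * q) (s / l)
    refine ⟨((s : ZMod l) : OnePoint (ZMod l)), upG (N * q) (s / l), ?_⟩
    rw [inv_inv, mul_assoc, inv_mul_eq_iff_eq_mul]
    have hreal : (j.val : ℝ) - (j.val : ℝ) * l =
        (q : ℝ) * ((((s : ZMod l).val : ℕ) : ℝ) + ((s / l : ℤ) : ℝ) * l) := by
      have hz : (j.val : ℤ) - (j.val : ℤ) * l =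
          (q : ℤ) * ((((s : ZMod l).val : ℕ) : ℤ) + (s / l) * l) := by
        rw [hy]
        have : s % l + s / l * l = s := by rw [mul_comm]; exact hdiv
        rw [this, hs]
        linear_combination (-(j.val : ℤ)) * ht
      exact_mod_cast hz
    apply gl_ext <;>
      simp only [coe_mul_apply, coe_ιN_apply, coe_heckeRep_coe, val_heckeDiagMatrix hq0,
        Matrix.of_apply, Matrix.cons_val', Matrix.cons_val_zero, Matrix.cons_val_one,
        Matrix.cons_val_fin_one, e00, e01, e10, e11, u00, u01, u10, u11] <;>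
      push_cast
    · ring
    · linear_combination hreal
    · ring
    · ring

/-- The transfer of the system `sysD` is the Hecke operator of level `N q`. -/
theorem sysD_transfer (hq : q.Prime) (hlN : ¬ l ∣ N) (hlNq : ¬ l ∣ N * q)
    (hl1 : (q : ℤ) ∣ (l : ℤ) - 1) (φ : Additive (Gamma0 (N * q)) →+ A) :
    (sysD hq hlN hl1).transfer φ = heckeTransfer hlNq φ := by
  rw [heckeTransfer_eq_transfer, ← IsCosetSystem.conj_transfer (sysD hq hlN hl1)
    (heckeDiagMatrix q)⁻¹ (diag_inv_rel hq.ne_zero) (diag_inv_rel hq.ne_zero)]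
  exact IsCosetSystem.transfer_eq_of_le_of_card _ (heckeSystem hlNq) rfl
    (conj_rhoT hq.ne_zero hl1) φ

/-- **Step `r₂`.** -/
theorem r₂_XJ (hq : q.Prime) (hqN : ¬ q ∣ N) (hlN : ¬ l ∣ N) (hlNq : ¬ l ∣ N * q)
    (hl1 : (q : ℤ) ∣ (l : ℤ) - 1) (u v : Additive (Gamma0 (N * q)) →+ A)
    (hker : r₁ (N * q) q u + r₂ (N * q) q v = 0) :
    r₂ N q (XJ hq hqN hlN hl1 u v hker) = - (heckeTransfer hlNq u - (l + 1) • u) := by
  have : Fact q.Prime := ⟨hq⟩
  refine AddMonoidHom.ext fun g' => ?_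
  obtain ⟨γ, rfl⟩ : ∃ γ : Gamma0 (N * q), Additive.ofMul γ = g' := ⟨Additive.toMul g', rfl⟩
  have e1 : r₂ N q (XJ hq hqN hlN hl1 u v hker) (Additive.ofMul γ) =
      XJ hq hqN hlN hl1 u v hker (Additive.ofMul (conjDelta N q γ)) := rfl
  rw [e1, XJ_apply, ← sysD_transfer hq hlN hlNq hl1 u]
  simp only [AddMonoidHom.neg_apply, AddMonoidHom.sub_apply, AddMonoidHom.smul_apply,
    IsCosetSystem.transfer_apply]
  have key : ∀ x : OnePoint (ZMod l),
      FV v ((sysT hlN).coc x (conjDelta N q γ) * (conjDelta N q γ)⁻¹) =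
      - (u (Additive.ofMul ((sysD hq hlN hl1).coc x γ)) - u (Additive.ofMul γ)) := by
    intro x
    have hmem := sysT_coc_mem (q := q) hlN hl1 x (conjDelta N q γ)
    rw [← sysD_coc hq hlN hl1, ← map_inv, ← map_mul] at hmem ⊢
    rw [FV_conjDelta u v hker _ (mem_gamma0_mul_of_mem_KG hq hqN hmem), ofMul_mul, ofMul_inv,
      map_add, map_neg, sub_eq_add_neg]
  simp only [key, Finset.sum_neg_distrib, Finset.sum_sub_distrib, Finset.sum_const,
    Finset.card_univ, card_onePoint]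

/-- **J3b, core.**  Exactness at the stage `N q → N q²` up to the operator `T_l - (l + 1)`,
for ANY coefficient group. -/
theorem j3b_core (hq : q.Prime) (hqN : ¬ q ∣ N) (hlN : ¬ l ∣ N) (hlNq : ¬ l ∣ N * q)
    (hl1 : (q : ℤ) ∣ (l : ℤ) - 1) (u v : Additive (Gamma0 (N * q)) →+ A)
    (hker : r₁ (N * q) q u + r₂ (N * q) q v = 0) :
    ∃ X : Additive (Gamma0 N) →+ A,
      r₁ N q X = heckeTransfer hlNq v - (l + 1) • v ∧
      r₂ N q X = - (heckeTransfer hlNq u - (l + 1) • u) :=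
  ⟨XJ hq hqN hlN hl1 u v hker, r₁_XJ hq hqN hlN hlNq hl1 u v hker,
    r₂_XJ hq hqN hlN hlNq hl1 u v hker⟩

end Fermat.Agent.S59.H285
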